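import Fermat.Agent.QuaternionNF.Algebra
import Fermat.Agent.BrauerTheory.Cancel
import Fermat.Agent.BrauerTheory.Cyclic
import Mathlib.Algebra.QuadraticAlgebra.Basic
import Mathlib.FieldTheory.Galois.Basic
import Mathlib.LinearAlgebra.Dimension.FreeAndStrongRankCondition

/-!
# Quaternion algebras in the Brauer group

The class of `(a, b)` is symmetric and bimultiplicative, and trivial exactly when the conic has a
point.
-/

set_option autoImplicit false
set_option linter.style.haveILetI false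

noncomputable section

universe u

open scoped Quaternion
open Module

namespace Fermat.Agent.MerkurjevRat

open FA.QuaternionNF FA.BrauerTheory FA.CyclicAlgebra

variable {F : Type u} [Field F] [CharZero F]

theorem quaternion_central {a b : F} (ha : a ≠ 0) (_hb : b ≠ 0) :
    Algebra.IsCentral F ℍ[F,a,b] := by
  refine ⟨fun x hx => ?_⟩
  rw [Subalgebra.mem_center_iff] at hx
  have hi := hx ⟨0, 1, 0, 0⟩
  have hj := hx ⟨0, 0, 1, 0⟩
  have h1 := congrArg QuaternionAlgebra.imK hi
  have h2 := congrArg QuaternionAlgebra.imJ hi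
  have h3 := congrArg QuaternionAlgebra.imK hj
  simp at h1 h2 h3
  have eJ : x.imJ = 0 := (mul_eq_zero.1 (show (2 : F) * x.imJ = 0 by linear_combination h1)
    ).resolve_left two_ne_zero
  have eK : x.imK = 0 := (mul_eq_zero.1 (show (2 * a) * x.imK = 0 by linear_combination h2)
    ).resolve_left (mul_ne_zero two_ne_zero ha)
  have eI : x.imI = 0 := (mul_eq_zero.1 (show (2 : F) * x.imI = 0 by linear_combination -h3)
    ).resolve_left two_ne_zero
  refine Algebra.mem_bot.2 ⟨x.re, ?_⟩
  rw [QuaternionAlgebra.algebraMap_eq]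
  exact QuaternionAlgebra.ext rfl eI.symm eJ.symm eK.symm

theorem quaternion_simple {a b : F} (ha : a ≠ 0) (hb : b ≠ 0) : IsSimpleRing ℍ[F,a,b] := by
  refine IsSimpleRing.of_eq_bot_or_eq_top fun I => ?_
  by_contra! hI
  obtain ⟨hbot, htop⟩ := hI
  let π : ℍ[F,a,b] →ₐ[F] I.ringCon.Quotient := RingCon.mkₐ F I.ringCon
  have : Nontrivial I.ringCon.Quotient := by
    refine ⟨⟨π 0, π 1, fun h => htop ?_⟩⟩
    refine (TwoSidedIdeal.one_mem_iff I).1 ?_
    rw [TwoSidedIdeal.mem_iff]
    exact I.ringCon.symm ((RingCon.eq _).1 h)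
  have hinj := injective_quaternion_hom ha hb π
  refine hbot (le_antisymm (fun x hx => ?_) bot_le)
  rw [TwoSidedIdeal.mem_bot]
  refine hinj ?_
  rw [map_zero]
  exact (RingCon.eq _).2 ((TwoSidedIdeal.mem_iff _ _).1 hx)

/-- The quaternion algebra as a central simple algebra. -/
def quatCSA (a b : Fˣ) : CSA.{u, u} F :=
  { __ := AlgCat.of F ℍ[F,(a : F),(b : F)]
    isCentral := quaternion_central a.ne_zero b.ne_zero
    isSimple := quaternion_simple a.ne_zero b.ne_zero
    fin_dim := inferInstanceAs (FiniteDimensional F ℍ[F,(a : F),(b : F)]) }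

/-- The class of a quaternion algebra. -/
def quatClass (a b : Fˣ) : BrauerGroup.{u, u} F := mk (quatCSA a b)

theorem finrank_quatCSA (a b : Fˣ) : finrank F (quatCSA a b) = 4 :=
  QuaternionAlgebra.finrank_eq_four (a : F) 0 (b : F)

/-- **Isomorphic exactly with the same class.** -/
theorem quatClass_eq_iff {a b c d : Fˣ} :
    quatClass a b = quatClass c d ↔
      Nonempty (ℍ[F,(a : F),(b : F)] ≃ₐ[F] ℍ[F,(c : F),(d : F)]) :=
  ⟨fun h => nonempty_algEquiv_of_mk_eq (A := quatCSA a b) (B := quatCSA c d) h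
      ((finrank_quatCSA a b).trans (finrank_quatCSA c d).symm),
    fun ⟨e⟩ => mk_eq_iff.2 (equivalent_of_algEquiv (A := quatCSA a b) (B := quatCSA c d) e)⟩

/-- **Trivial exactly with a point on the conic.** -/
theorem quatClass_eq_one_iff {a b : Fˣ} :
    quatClass a b = 1 ↔ ∃ x y : F, (a : F) * x ^ 2 + (b : F) * y ^ 2 = 1 := by
  refine mk_eq_one_iff.trans ⟨?_, fun h => ?_⟩
  · rintro ⟨n, hn, ⟨e⟩⟩
    by_contra hc
    have hu := (forall_isUnit_iff a.ne_zero b.ne_zero).2 hc
    have hdim := e.toLinearEquiv.finrank_eq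
    rw [finrank_quatCSA, Module.finrank_matrix, Fintype.card_fin, Module.finrank_self, mul_one]
      at hdim
    obtain rfl : n = 2 := by nlinarith [Nat.pos_of_ne_zero hn]
    let f : ℍ[F,(a : F),(b : F)] ≃ₐ[F] Matrix (Fin 2) (Fin 2) F := e
    have hne : f.symm (Matrix.single 0 0 1) ≠ 0 := fun h => by
      have h' := congrArg (fun M : Matrix (Fin 2) (Fin 2) F => M 0 0)
        ((EmbeddingLike.map_eq_zero_iff (f := f.symm)).1 h)
      simp at h'
    have h' := ((Matrix.isUnit_iff_isUnit_det _).1 ((hu _ hne).map f))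
    rw [f.apply_symm_apply] at h'
    simp [Matrix.det_fin_two] at h'
  · exact ⟨2, two_ne_zero, nonempty_algEquiv_matrix a.ne_zero b.ne_zero h⟩

theorem quatClass_comm (a b : Fˣ) : quatClass a b = quatClass b a := by
  refine quatClass_eq_iff.2 (nonempty_algEquiv_of_basis a.ne_zero b.ne_zero
    (QuaternionAlgebra.finrank_eq_four _ _ _)
    { i := ⟨0, 0, 1, 0⟩
      j := ⟨0, 1, 0, 0⟩
      k := ⟨0, 0, 0, -1⟩
      i_mul_i := ?_
      j_mul_j := ?_
      i_mul_j := ?_
      j_mul_i := ?_ }) <;>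
    ext <;> simp

theorem quatClass_of_isSquare {a : Fˣ} (h : IsSquare (a : F)) (b : Fˣ) : quatClass a b = 1 := by
  obtain ⟨r, hr⟩ := h
  have hr0 : r ≠ 0 := fun e => a.ne_zero (by rw [hr, e, mul_zero])
  exact quatClass_eq_one_iff.2 ⟨r⁻¹, 0, by rw [hr]; field_simp; ring⟩

section cyclic

variable (a : Fˣ) [Fact (∀ r : F, r ^ 2 ≠ (a : F) + 0 * r)]

/-- The conjugation of `F(√a)`. -/
def conjEquiv : QuadraticAlgebra F (a : F) 0 ≃ₐ[F] QuadraticAlgebra F (a : F) 0 where
  toFun := star
  invFun := star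
  left_inv := star_star
  right_inv := star_star
  map_mul' x y := by rw [star_mul, mul_comm]
  map_add' := star_add
  commutes' r := by ext <;> simp [QuadraticAlgebra.algebraMap_eq]

instance quadraticExtension : Algebra.IsQuadraticExtension F (QuadraticAlgebra F (a : F) 0) :=
  { finrank_eq_two' := QuadraticAlgebra.finrank_eq_two _ _ }

theorem conjEquiv_generates :
    ∀ g, g ∈ Subgroup.zpowers (conjEquiv a) := by
  have hne : conjEquiv a ≠ 1 := fun h => by
    have h' := congrArg (fun g => (g (⟨0, 1⟩ : QuadraticAlgebra F (a : F) 0)).im) h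
    simp [conjEquiv] at h'
    exact (two_ne_zero : (2 : F) ≠ 0) (by linear_combination -h')
  have : Fact (Nat.Prime 2) := ⟨Nat.prime_two⟩
  have hcard : Nat.card (QuadraticAlgebra F (a : F) 0 ≃ₐ[F] QuadraticAlgebra F (a : F) 0) = 2 := by
    rw [IsGalois.card_aut_eq_finrank, QuadraticAlgebra.finrank_eq_two]
  intro g
  rw [zpowers_eq_top_of_prime_card hcard hne]
  exact Subgroup.mem_top g

/-- `F(√a)` inside `(a, b)`. -/
def quadEmbedding (b : Fˣ) : QuadraticAlgebra F (a : F) 0 →ₐ[F] ℍ[F,(a : F),(b : F)] :=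
  QuadraticAlgebra.lift ⟨⟨0, 1, 0, 0⟩, by ext <;> simp⟩

omit [CharZero F] in
theorem quadEmbedding_apply (b : Fˣ) (x : QuadraticAlgebra F (a : F) 0) :
    quadEmbedding a b x = ⟨x.re, x.im, 0, 0⟩ := by
  show x.re • (1 : ℍ[F,(a : F),(b : F)]) + x.im • (⟨0, 1, 0, 0⟩ : ℍ[F,(a : F),(b : F)]) = _
  ext <;> simp

/-- `(a, b)` as a cyclic algebra. -/
def presentation (b : Fˣ) :
    Presentation (conjEquiv a) (b : F) (quatCSA a b) where
  f := quadEmbedding a b
  u := (⟨0, 0, 1, 0⟩ : ℍ[F,(a : F),(b : F)])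
  conj x := by
    show (⟨0, 0, 1, 0⟩ : ℍ[F,(a : F),(b : F)]) * quadEmbedding a b x =
      quadEmbedding a b (star x) * (⟨0, 0, 1, 0⟩ : ℍ[F,(a : F),(b : F)])
    rw [quadEmbedding_apply, quadEmbedding_apply]
    ext <;> simp
  pow_eq := by
    rw [QuadraticAlgebra.finrank_eq_two, pow_two]
    show (⟨0, 0, 1, 0⟩ : ℍ[F,(a : F),(b : F)]) * (⟨0, 0, 1, 0⟩ : ℍ[F,(a : F),(b : F)]) =
      algebraMap F ℍ[F,(a : F),(b : F)] b
    ext <;> simp [QuaternionAlgebra.algebraMap_eq]

theorem quatClass_mul_right_of_nonsquare (b c : Fˣ) :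
    quatClass a b * quatClass a c = quatClass a (b * c) := by
  have hd : ∀ e : Fˣ,
      finrank F (quatCSA a e) = finrank F (QuadraticAlgebra F (a : F) 0) ^ 2 := fun e => by
    rw [finrank_quatCSA, QuadraticAlgebra.finrank_eq_two]
    norm_num
  exact mk_mul_cyclic (conjEquiv_generates a) b.ne_zero c.ne_zero (presentation a b)
    (presentation a c) (Units.val_mul b c ▸ presentation a (b * c)) (hd b) (hd c) (hd _)

end cyclic

theorem quatClass_mul_right (a b c : Fˣ) :
    quatClass a (b * c) = quatClass a b * quatClass a c := by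
  by_cases h : IsSquare (a : F)
  · simp only [quatClass_of_isSquare h, mul_one]
  · have : Fact (∀ r : F, r ^ 2 ≠ (a : F) + 0 * r) :=
      ⟨fun r e => h ⟨r, by rw [zero_mul, add_zero] at e; rw [← e, pow_two]⟩⟩
    exact (quatClass_mul_right_of_nonsquare a b c).symm

theorem quatClass_mul_left (a b c : Fˣ) :
    quatClass (a * b) c = quatClass a c * quatClass b c := by
  rw [quatClass_comm, quatClass_mul_right, quatClass_comm c a, quatClass_comm c b]

theorem quatClass_sq (a b : Fˣ) : quatClass a b ^ 2 = 1 := by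
  rw [pow_two, ← quatClass_mul_right, quatClass_comm]
  exact quatClass_of_isSquare (a := b * b) ⟨(b : F), Units.val_mul b b⟩ a

end Fermat.Agent.MerkurjevRat
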