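import Fermat.Agent.MerkurjevRat.Algebra
import Fermat.Agent.PositiveInvolution.RealPlaces

/-!
# Central division algebras of dimension four

In characteristic zero they are quaternion algebras.
-/

set_option autoImplicit false

noncomputable section

open scoped Quaternion
open Module

namespace Fermat.Agent.MerkurjevRat

variable {F : Type} [Field F] [CharZero F] {D : Type} [DivisionRing D] [Algebra F D]
  [Algebra.IsCentral F D] [FiniteDimensional F D]

/-- **A central division algebra of dimension four is a quaternion algebra.** -/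
theorem exists_quaternion_of_finrank_four (hd : finrank F D = 4) :
    ∃ a b : Fˣ, Nonempty (ℍ[F,(a : F),(b : F)] ≃ₐ[F] D) := by
  obtain ⟨y, hy⟩ : ∃ y : D, y ∉ (algebraMap F D).range := by
    by_contra! h
    have hle := LinearMap.finrank_le_finrank_of_surjective
      (f := Algebra.linearMap F D) fun x => h x
    rw [hd, Module.finrank_self] at hle
    omega
  obtain ⟨c, a, ha⟩ := FA.PositiveInvolution.exists_sqrt_shift hd hy
  set i := y + algebraMap F D c
  have hi : i ∉ (algebraMap F D).range := fun ⟨r, hr⟩ => hy ⟨r - c, by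
    rw [map_sub, hr, add_sub_cancel_right]⟩
  clear_value i
  have hi0 : i ≠ 0 := fun e => hi ⟨0, by rw [map_zero, e]⟩
  obtain ⟨z, hz⟩ : ∃ z : D, i * z - z * i ≠ 0 := by
    by_contra! h
    obtain ⟨r, hr⟩ := Algebra.mem_bot.1 (Algebra.IsCentral.out (K := F)
      ((Subalgebra.mem_center_iff (R := F)).2 fun z => (sub_eq_zero.1 (h z)).symm))
    exact hi ⟨r, hr⟩
  set j := i * z - z * i with hj
  have hij : i * j = -(j * i) := by
    rw [hj, mul_sub, sub_mul, ← mul_assoc, ← mul_assoc, mul_assoc z i i, ha,
      Algebra.commutes a z]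
    abel
  clear_value j
  have hne : i * j ≠ 0 := mul_ne_zero hi0 hz
  have h2 : ∀ x : D, x + x = 0 → x = 0 := fun x hx => by
    have : (2 : F) • x = 0 := by rw [two_smul, hx]
    exact (smul_eq_zero.1 this).resolve_left two_ne_zero
  have hjr : j ∉ (algebraMap F D).range := fun ⟨r, hr⟩ => hne (h2 _ (by
    conv_lhs => arg 1; rw [hij, ← hr, Algebra.commutes r i, hr]
    exact neg_add_cancel _))
  obtain ⟨c', e, he⟩ := FA.PositiveInvolution.exists_sqrt_shift hd hjr
  have hjj : i * (j * j) = j * j * i := by
    rw [← mul_assoc, hij, neg_mul, mul_assoc, hij, mul_neg, neg_neg, mul_assoc]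
  have hc' : c' = 0 := by
    by_contra hc
    have hexp : (j + algebraMap F D c') * (j + algebraMap F D c') =
        j * j + (c' + c') • j + algebraMap F D (c' * c') := by
      rw [mul_add, add_mul, add_mul, ← Algebra.commutes c' j, ← Algebra.smul_def, map_mul,
        add_smul]
      abel
    have hji : (c' + c') • (i * j) = (c' + c') • (j * i) := by
      have h1 : (c' + c') • j = algebraMap F D (e - c' * c') - j * j := by
        rw [map_sub, ← he, hexp]
        abel
      rw [← mul_smul_comm, ← smul_mul_assoc, h1, mul_sub, sub_mul, ← Algebra.commutes, hjj]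
    have h3 : i * j = j * i := by
      refine smul_right_injective D (show c' + c' ≠ 0 from fun h => hc ?_) hji
      exact (mul_eq_zero.1 (show (2 : F) * c' = 0 by linear_combination h)).resolve_left two_ne_zero
    exact hne (h2 _ (by nth_rw 2 [h3]; rw [hij, neg_add_cancel]))
  rw [hc', map_zero, add_zero] at he
  have ha0 : a ≠ 0 := fun h => by
    rw [h, map_zero] at ha
    exact hi0 (mul_self_eq_zero.1 ha)
  have he0 : e ≠ 0 := fun h => by
    rw [h, map_zero] at he
    exact hz (mul_self_eq_zero.1 he)
  exact ⟨Units.mk0 a ha0, Units.mk0 e he0, FA.QuaternionNF.nonempty_algEquiv_of_basis ha0 he0 hd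
    { i := i
      j := j
      k := i * j
      i_mul_i := by rw [ha, Algebra.algebraMap_eq_smul_one, zero_smul, add_zero]
      j_mul_j := by rw [he, Algebra.algebraMap_eq_smul_one]
      i_mul_j := rfl
      j_mul_i := by rw [zero_smul, zero_sub, hij, neg_neg] }⟩

end Fermat.Agent.MerkurjevRat
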