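import Fermat.Agent.MerkurjevRat.Symbols
import Fermat.Agent.MerkurjevRat.Structure
import Fermat.Agent.BrauerTheory.Index
import Fermat.Agent.BrauerInvariant.Classification
import Fermat.Agent.QuadForms.Corollaries
import Fermat.Agent.K2Rat.Reciprocity

/-!
# Merkurjev's theorem for the rationals

By Meyer's theorem two rational quaternion algebras share a slot, so every element of `K₂ ℚ / 2` is
one symbol; the classification of division algebras gives every class of exponent two.
-/

set_option autoImplicit false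

noncomputable section

open scoped Quaternion DirectSum
open Module

namespace Fermat.Agent.MerkurjevRat

open Fermat.Agent.K2Rat FA.BrauerTheory

attribute [local instance] primesFact

/-- The quaternion symbol into the Brauer group. -/
def quatSymbol (F : Type) [Field F] [CharZero F] :
    SteinbergSymbol F (Additive (BrauerGroup.{0, 0} F)) where
  toFun a b := Additive.ofMul (quatClass a b)
  mul_left a b c := by rw [← ofMul_mul, quatClass_mul_left]
  mul_right a b c := by rw [← ofMul_mul, quatClass_mul_right]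
  steinberg a b h := ofMul_eq_zero.2 (quatClass_eq_one_iff.2 ⟨1, 1, by simpa using h⟩)

/-- **The norm residue homomorphism** `K₂ F / 2 → Br F`. -/
def normResidue (F : Type) [Field F] [CharZero F] :
    K2ModTwo F →+ Additive (BrauerGroup.{0, 0} F) :=
  QuotientAddGroup.lift (k2Doubles F) (lift (quatSymbol F)) (by
    rintro _ ⟨v, rfl⟩
    have h : (2 : ℤ) • lift (quatSymbol F) = 0 := hom_ext fun a b => by
      rw [AddMonoidHom.smul_apply, lift_univSymbol, AddMonoidHom.zero_apply, two_zsmul]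
      exact (ofMul_mul _ _).symm.trans
        (congrArg Additive.ofMul ((pow_two _).symm.trans (quatClass_sq a b)))
    rw [AddMonoidHom.mem_ker, zsmulAddGroupHom_apply, map_zsmul]
    exact DFunLike.congr_fun h v)

theorem normResidue_symbolTwo {F : Type} [Field F] [CharZero F] (a b : Fˣ) :
    normResidue F (symbolTwo F a b) = Additive.ofMul (quatClass a b) :=
  lift_univSymbol (quatSymbol F) a b

theorem symbolTwo_two {F : Type*} [Field F] (a b : Fˣ) :
    symbolTwo F a b + symbolTwo F a b = 0 :=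
  add_self_eq_zero F _

/-- Two symbols make one. -/
theorem exists_add_symbol (a b c d : ℚˣ) :
    ∃ e f, symbolTwo ℚ a b + symbolTwo ℚ c d = symbolTwo ℚ e f := by
  by_cases h1 : ∃ x y : ℚ, (a : ℚ) * x ^ 2 + b * y ^ 2 = 1
  · obtain ⟨x, y, h⟩ := h1
    exact ⟨c, d, by rw [Symbols.eq_zero_of_conic _ symbolTwo_two a b h, zero_add]⟩
  by_cases h2 : ∃ x y : ℚ, (c : ℚ) * x ^ 2 + d * y ^ 2 = 1
  · obtain ⟨x, y, h⟩ := h2
    exact ⟨a, b, by rw [Symbols.eq_zero_of_conic _ symbolTwo_two c d h, add_zero]⟩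
  set v : Fin 6 → ℚ := ![a, b, -(a * b), -c, -d, c * d]
  have hR : FA.QuadForms.Isotropic fun i => (v i : ℝ) := by
    have hmix : (∃ i, 0 < v i) ∧ ∃ i, v i < 0 := by
      constructor
      · rcases c.ne_zero.lt_or_gt with hc | hc
        · exact ⟨3, by simpa [v] using hc⟩
        rcases d.ne_zero.lt_or_gt with hd | hd
        · exact ⟨4, by simpa [v] using hd⟩
        exact ⟨5, by simpa [v] using mul_pos hc hd⟩
      · rcases a.ne_zero.lt_or_gt with ha | ha
        · exact ⟨0, by simpa [v] using ha⟩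
        rcases b.ne_zero.lt_or_gt with hb | hb
        · exact ⟨1, by simpa [v] using hb⟩
        exact ⟨2, by simpa [v] using mul_pos ha hb⟩
    obtain ⟨⟨i, hi⟩, j, hj⟩ := hmix
    have hi' : (0 : ℝ) < v i := by exact_mod_cast hi
    have hj' : (v j : ℝ) < 0 := by exact_mod_cast hj
    have hij : i ≠ j := fun e => lt_asymm hj (e ▸ hi)
    refine ⟨fun k => if k = i then Real.sqrt (-(v j)) else if k = j then Real.sqrt (v i) else 0,
      fun h => ?_, ?_⟩
    · have := congrFun h i
      simp [Real.sqrt_eq_zero'] at this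
      linarith
    · rw [Finset.sum_eq_add i j hij (fun k _ hk => by simp [hk.1, hk.2]) (by simp) (by simp)]
      simp only [if_neg hij.symm, if_true]
      rw [Real.sq_sqrt (show (0 : ℝ) ≤ -(v j : ℝ) by linarith), Real.sq_sqrt hi'.le]
      ring
  obtain ⟨u, hu, he⟩ := (FA.QuadForms.isotropic_of_five (by simp) v).2 hR
  simp [v, Fin.sum_univ_six] at he
  set m := (a : ℚ) * u 0 ^ 2 + b * u 1 ^ 2 - a * b * u 2 ^ 2 with hm
  have hm' : m = c * u 3 ^ 2 + d * u 4 ^ 2 - c * d * u 5 ^ 2 := by
    rw [hm]; linear_combination he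
  have hm0 : m ≠ 0 := fun h0 => by
    have hz : ∀ (a b : ℚˣ) (x y z : ℚ), (¬ ∃ x y : ℚ, (a : ℚ) * x ^ 2 + b * y ^ 2 = 1) →
        (a : ℚ) * x ^ 2 + b * y ^ 2 - a * b * z ^ 2 = 0 → x = 0 ∧ y = 0 ∧ z = 0 := by
      intro a b x y z hs h
      by_contra hn
      refine hs (FA.QuaternionNF.exists_conic_of_norm_zero (r := 0) (x := x) (y := y) (z := z)
        a.ne_zero b.ne_zero ?_ (by linear_combination -h))
      tauto
    obtain ⟨e0, e1, e2⟩ := hz a b _ _ _ h1 h0
    obtain ⟨e3, e4, e5⟩ := hz c d _ _ _ h2 (hm'.symm.trans h0)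
    exact hu (funext fun i => by fin_cases i <;> simp [e0, e1, e2, e3, e4, e5])
  obtain ⟨g, hg⟩ := Symbols.exists_slot (symbolTwo ℚ) symbolTwo_two a b (Units.mk0 m hm0)
    (x := u 0) (y := u 1) (z := u 2) rfl
  obtain ⟨k, hk⟩ := Symbols.exists_slot (symbolTwo ℚ) symbolTwo_two c d (Units.mk0 m hm0)
    (x := u 3) (y := u 4) (z := u 5) hm'
  exact ⟨Units.mk0 m hm0, g * k, by rw [hg, hk, (symbolTwo ℚ).mul_right]⟩

/-- **Every element of `K₂ ℚ / 2` is a symbol.** -/
theorem exists_eq_symbolTwo (x : K2ModTwo ℚ) : ∃ a b, x = symbolTwo ℚ a b := by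
  obtain ⟨w, rfl⟩ := modTwo_surjective ℚ x
  have hw := (closure_range_univSymbol (F := ℚ)).ge (AddSubgroup.mem_top w)
  induction hw using AddSubgroup.closure_induction with
  | mem y hy =>
    obtain ⟨⟨a, b⟩, rfl⟩ := hy
    exact ⟨a, b, rfl⟩
  | zero => exact ⟨1, 1, by rw [map_zero, (symbolTwo ℚ).one_left]⟩
  | add y z _ _ hy hz =>
    obtain ⟨a, b, ha⟩ := hy
    obtain ⟨c, d, hc⟩ := hz
    obtain ⟨e, f, hef⟩ := exists_add_symbol a b c d
    exact ⟨e, f, by rw [map_add, ha, hc, hef]⟩
  | neg y _ hy =>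
    obtain ⟨a, b, ha⟩ := hy
    exact ⟨a, b, by rw [map_neg, ha]; exact neg_eq_of_add_eq_zero_left (symbolTwo_two a b)⟩

/-- **Injectivity.** -/
theorem normResidue_injective : Function.Injective (normResidue ℚ) := by
  refine (injective_iff_map_eq_zero _).2 fun x hx => ?_
  obtain ⟨a, b, rfl⟩ := exists_eq_symbolTwo x
  rw [normResidue_symbolTwo, ofMul_eq_zero, quatClass_eq_one_iff] at hx
  obtain ⟨u, v, h⟩ := hx
  exact Symbols.eq_zero_of_conic _ symbolTwo_two a b h

/-- **Every class of exponent two is a quaternion algebra.** -/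
theorem exists_quatClass_eq {x : BrauerGroup.{0, 0} ℚ} (hx : x ^ 2 = 1) :
    ∃ a b : ℚˣ, x = quatClass a b := by
  obtain ⟨D, _, _, _, _, rfl⟩ := exists_division_rep x
  have h := FA.BrauerInvariant.finrank_eq_sq (K := ℚ) (D := D)
  have hle : orderOf (FA.BrauerInvariant.classOf ℚ D) ∣ 2 := orderOf_dvd_of_pow_eq_one hx
  rcases (Nat.dvd_prime Nat.prime_two).1 hle with h1 | h1
  · exact ⟨1, 1, (orderOf_eq_one_iff.1 h1).trans
      (quatClass_of_isSquare (a := 1) ⟨1, by simp⟩ 1).symm⟩
  · rw [h1] at h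
    obtain ⟨a, b, ⟨e⟩⟩ := exists_quaternion_of_finrank_four h
    exact ⟨a, b, (mk_eq_iff.2 (equivalent_of_algEquiv (A := quatCSA a b)
      (B := ({ __ := AlgCat.of ℚ D } : CSA.{0, 0} ℚ)) e)).symm⟩

/-- **Merkurjev's theorem for `ℚ`**: the range is the classes of exponent two. -/
theorem normResidue_range (x : BrauerGroup.{0, 0} ℚ) :
    Additive.ofMul x ∈ (normResidue ℚ).range ↔ x ^ 2 = 1 := by
  refine ⟨fun ⟨w, hw⟩ => ?_, fun h => ?_⟩
  · obtain ⟨a, b, rfl⟩ := exists_eq_symbolTwo w
    rw [normResidue_symbolTwo] at hw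
    rw [← Additive.ofMul.injective hw, quatClass_sq]
  · obtain ⟨a, b, rfl⟩ := exists_quatClass_eq h
    exact ⟨symbolTwo ℚ a b, normResidue_symbolTwo a b⟩

theorem legHom_eq_zero {q : ℕ} [Fact q.Prime] {x : Additive (ZMod q)ˣ} (h : legHom q x = 0) :
    ∃ y, x = y + y := by
  have h1 := coe_legHom (Additive.toMul x)
  rw [ofMul_toMul, h, toMul_zero, Units.val_one, eq_comm,
    quadraticChar_one_iff_isSquare (Units.ne_zero _)] at h1
  obtain ⟨r, hr⟩ := h1
  have hr0 : r ≠ 0 := fun e => (Additive.toMul x).ne_zero (by rw [hr, e, mul_zero])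
  exact ⟨Additive.ofMul (Units.mk0 r hr0), congrArg Additive.ofMul (Units.ext hr)⟩

theorem legHom_add_self {q : ℕ} [Fact q.Prime] (x : Additive (ZMod q)ˣ) :
    legHom q (x + x) = 0 := by
  rw [map_add, ← two_nsmul]
  exact congrArg Additive.ofMul (Int.units_sq (Additive.toMul (legHom q x)))

/-- Modulo two an element of `K₂ ℚ` is known by its real symbol and Legendre tame symbols. -/
theorem modTwo_eq_zero_iff_symbols (w : K2 ℚ) :
    modTwo ℚ w = 0 ↔
      lift realSymbol w = 0 ∧ ∀ q : Nat.Primes, legHom q (lift (tame q) w) = 0 := by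
  classical
  rw [modTwo_eq_zero_iff]
  constructor
  · rintro ⟨v, rfl⟩
    refine ⟨?_, fun q => by rw [map_add, legHom_add_self]⟩
    rw [map_add, ← two_nsmul]
    exact congrArg Additive.ofMul (Int.units_sq (Additive.toMul (lift realSymbol v)))
  · rintro ⟨h0, hq⟩
    choose y hy using fun q => legHom_eq_zero (hq q)
    set d := DirectSum.mk (fun q : Nat.Primes => Additive (ZMod (q : ℕ))ˣ)
      (DFinsupp.support (lift allSymbols w).2) fun q => y q.1
    refine ⟨k2RatEquiv.symm (0, d), k2RatEquiv.injective ?_⟩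
    rw [map_add, AddEquiv.apply_symm_apply]
    show lift allSymbols w = _
    refine Prod.ext (by rw [lift_allSymbols_fst, h0]; rfl) (DirectSum.ext fun q => ?_)
    rw [Prod.snd_add, DirectSum.add_apply]
    by_cases hmem : q ∈ DFinsupp.support (lift allSymbols w).2
    · rw [show d q = y q from DirectSum.mk_apply_of_mem hmem, lift_allSymbols_snd, hy q]
    · rw [show d q = 0 from DirectSum.mk_apply_of_notMem hmem, add_zero]
      exact DFinsupp.notMem_support_iff.1 hmem

/-- **Rational quaternion algebras are classified by the real and Legendre tame symbols.** -/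
theorem nonempty_algEquiv_iff_symbols (a b c d : ℚˣ) :
    Nonempty (ℍ[ℚ,(a : ℚ),(b : ℚ)] ≃ₐ[ℚ] ℍ[ℚ,(c : ℚ),(d : ℚ)]) ↔
      realSymbol a b = realSymbol c d ∧
        ∀ q : Nat.Primes, legHom q (tame q a b) = legHom q (tame q c d) := by
  have h : quatClass a b = quatClass c d ↔
      modTwo ℚ (univSymbol ℚ a b - univSymbol ℚ c d) = 0 := by
    rw [map_sub, sub_eq_zero]
    constructor
    · intro h
      exact normResidue_injective (show normResidue ℚ (symbolTwo ℚ a b) =
        normResidue ℚ (symbolTwo ℚ c d) by rw [normResidue_symbolTwo, normResidue_symbolTwo, h])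
    · intro h
      have h' := congrArg (normResidue ℚ) (show symbolTwo ℚ a b = symbolTwo ℚ c d from h)
      rw [normResidue_symbolTwo, normResidue_symbolTwo] at h'
      exact Additive.ofMul.injective h'
  rw [← quatClass_eq_iff, h, modTwo_eq_zero_iff_symbols]
  simp only [map_sub, sub_eq_zero, lift_univSymbol]

end Fermat.Agent.MerkurjevRat
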