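import Fermat.Agent.K2Rat.Symbol

/-!
# Symbols modulo two

In `K₂ F / 2` a symbol vanishes if its conic has a point, and a symbol can be given any value of
its pure quaternion form as first slot.
-/

set_option autoImplicit false

noncomputable section

namespace Fermat.Agent.MerkurjevRat

open Fermat.Agent.K2Rat

variable (F : Type*) [Field F]

/-- The doubles in `K₂`. -/
def k2Doubles : AddSubgroup (K2 F) := (zsmulAddGroupHom (2 : ℤ) : K2 F →+ K2 F).range

/-- `K₂ F / 2`. -/
def K2ModTwo : Type _ := K2 F ⧸ k2Doubles F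

instance : AddCommGroup (K2ModTwo F) := inferInstanceAs (AddCommGroup (K2 F ⧸ k2Doubles F))

/-- The projection. -/
def modTwo : K2 F →+ K2ModTwo F := QuotientAddGroup.mk' (k2Doubles F)

theorem modTwo_surjective : Function.Surjective (modTwo F) := QuotientAddGroup.mk'_surjective _

theorem modTwo_eq_zero_iff {w : K2 F} : modTwo F w = 0 ↔ ∃ v, w = v + v := by
  refine (QuotientAddGroup.eq_zero_iff w).trans ⟨fun ⟨v, hv⟩ => ⟨v, ?_⟩, fun ⟨v, hv⟩ => ⟨v, ?_⟩⟩
  · rw [← hv, zsmulAddGroupHom_apply, two_zsmul]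
  · rw [hv, zsmulAddGroupHom_apply, two_zsmul]

theorem add_self_eq_zero (x : K2ModTwo F) : x + x = 0 := by
  obtain ⟨w, rfl⟩ := modTwo_surjective F x
  rw [← map_add, modTwo_eq_zero_iff]
  exact ⟨w, rfl⟩

/-- The symbol modulo two. -/
def symbolTwo : SteinbergSymbol F (K2ModTwo F) := (univSymbol F).map (modTwo F)

variable {F} {A : Type*} [AddCommGroup A]

namespace Symbols

variable (s : SteinbergSymbol F A) (h2 : ∀ a b, s a b + s a b = 0)

include h2

theorem symm (a b : Fˣ) : s a b = s b a := by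
  rw [eq_neg_of_add_eq_zero_left (s.skew a b), neg_eq_of_add_eq_zero_left (h2 b a)]

theorem sq_right (a b : Fˣ) : s a (b ^ 2) = 0 := by rw [pow_two, s.mul_right, h2]

theorem sq_left (a b : Fˣ) : s (a ^ 2) b = 0 := by rw [pow_two, s.mul_left, h2]

theorem mul_sq_left (a b c : Fˣ) : s (a * c ^ 2) b = s a b := by
  rw [s.mul_left, sq_left s h2, add_zero]

theorem mul_sq_right (a b c : Fˣ) : s a (b * c ^ 2) = s a b := by
  rw [s.mul_right, sq_right s h2, add_zero]

/-- `{A, B} = {A + B, -A B}`. -/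
theorem binary (a b d : Fˣ) (h : (a : F) + b = d) : s a b = s d (-1 * (a * b)) := by
  have h1 := s.steinberg (a * d⁻¹) (b * d⁻¹) (by
    rw [Units.val_mul, Units.val_mul, ← add_mul, h, Units.mul_inv])
  rw [s.mul_left, s.mul_right, s.mul_right, s.inv_left, s.inv_right, s.inv_left, s.inv_right,
    neg_neg, s.self_eq] at h1
  rw [s.mul_right, s.mul_right, symm s h2 d a]
  have hn : ∀ x y : Fˣ, -s x y = s x y := fun x y => neg_eq_of_add_eq_zero_left (h2 x y)
  rw [hn, hn] at h1
  rw [eq_neg_of_add_eq_zero_left (show s a b + (s a d + s d b + s d (-1)) = 0 by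
    rw [← h1]; abel), neg_add, neg_add, hn, hn, hn]
  abel

/-- A norm from `F(√a)` is killed by `a`. -/
theorem norm_right (a n : Fˣ) {y z : F} (h : (n : F) = y ^ 2 - a * z ^ 2) : s a n = 0 := by
  rcases eq_or_ne z 0 with rfl | hz
  · have hy : y ≠ 0 := fun e => n.ne_zero (by rw [h, e]; ring)
    rw [show n = Units.mk0 y hy ^ 2 from Units.ext (by simp [h]), sq_right s h2]
  rcases eq_or_ne y 0 with rfl | hy
  · have hn : n = (-1) * a * Units.mk0 z hz ^ 2 := Units.ext (by simp [h])
    rw [hn, mul_sq_right s h2, s.mul_right, s.self_eq, h2]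
  have h' := binary s h2 (Units.mk0 y hy ^ 2) (-1 * a * Units.mk0 z hz ^ 2) n (by
    simp [h, sub_eq_add_neg])
  rw [sq_left s h2, show -1 * (Units.mk0 y hy ^ 2 * (-1 * a * Units.mk0 z hz ^ 2)) =
      a * (Units.mk0 y hy * Units.mk0 z hz) ^ 2 from Units.ext (by simp; ring),
    mul_sq_right s h2] at h'
  rw [symm s h2, ← h']

/-- **A symbol with a point on its conic vanishes.** -/
theorem eq_zero_of_conic (a b : Fˣ) {x y : F} (h : (a : F) * x ^ 2 + b * y ^ 2 = 1) :
    s a b = 0 := by
  rcases eq_or_ne x 0 with rfl | hx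
  · have hy : y ≠ 0 := fun e => one_ne_zero (α := F) (by rw [← h, e]; ring)
    have hb : b = (Units.mk0 y hy)⁻¹ ^ 2 := Units.ext (by
      simp only [Units.val_pow_eq_pow_val, Units.val_inv_eq_inv_val, Units.val_mk0]
      field_simp
      linear_combination h)
    rw [hb, sq_right s h2]
  rcases eq_or_ne y 0 with rfl | hy
  · have ha : a = (Units.mk0 x hx)⁻¹ ^ 2 := Units.ext (by
      simp only [Units.val_pow_eq_pow_val, Units.val_inv_eq_inv_val, Units.val_mk0]
      field_simp
      linear_combination h)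
    rw [ha, sq_left s h2]
  rw [← mul_sq_left s h2 a b (Units.mk0 x hx), ← mul_sq_right s h2 _ b (Units.mk0 y hy)]
  exact s.steinberg _ _ (by simpa using h)

/-- **Changing the first slot.** -/
theorem exists_slot (a b : Fˣ) {x y z : F} (d : Fˣ)
    (h : (d : F) = a * x ^ 2 + b * y ^ 2 - a * b * z ^ 2) : ∃ c, s a b = s d c := by
  by_cases hN : y ^ 2 - (a : F) * z ^ 2 = 0
  · rcases eq_or_ne z 0 with rfl | hz
    · have hy : y = 0 := by simpa using hN
      subst hy
      have hx : x ≠ 0 := fun e => d.ne_zero (by rw [h, e]; ring)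
      have hd : d = a * Units.mk0 x hx ^ 2 := Units.ext (by simp [h])
      exact ⟨b, by rw [hd, mul_sq_left s h2]⟩
    · refine ⟨1, ?_⟩
      rw [s.one_right]
      have ha : (a : F) = (y / z) ^ 2 := by
        field_simp
        linear_combination -hN
      have hyz : y / z ≠ 0 := fun e => a.ne_zero (by rw [ha, e]; ring)
      rw [show a = Units.mk0 _ hyz ^ 2 from Units.ext (by simpa using ha), sq_left s h2]
  set n := Units.mk0 _ hN
  have hab : s a b = s a (b * n) := by
    rw [s.mul_right, norm_right s h2 a n rfl, add_zero]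
  rcases eq_or_ne x 0 with rfl | hx
  · have hd : d = b * n := Units.ext (by simp [h, n]; ring)
    exact ⟨a, by rw [hab, ← hd, symm s h2]⟩
  · refine ⟨-1 * (a * Units.mk0 x hx ^ 2 * (b * n)), ?_⟩
    rw [hab, ← mul_sq_left s h2 a (b * n) (Units.mk0 x hx)]
    exact binary s h2 _ _ _ (by simp [h, n]; ring)

end Symbols

end Fermat.Agent.MerkurjevRat
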